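/-
Programme MS (S12, Mazur), chapter PLACE (helper1): **the global canonicity step.**

`W / ℤ` multiplicative at `2` and `3`, `p ∉ {2,3,5,7,13}`, `Q ∈ E(ℚ̄)` of exact order `p^(k+1)` with
`⟨Q⟩` stable under `G_ℚ`, `K_k = ⟨p • Q⟩` canonical (in the zero component) at every multiplicative
prime `≠ p`, and `Q` in the zero component at (one place over) `2` and `3`.  Then `Q` is in the zero
component at every place `A ∣ ℓ`, `ℓ ∉ {2, 3, p}` multiplicative with `p ≤ 2ℓ - 1` (`can_step`).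

Route: `α = veluJ E ⟨pQ⟩`, `β = veluJ E ⟨Q⟩` are rational; at an adapted `f : ℚ̄ → ℂ_ℓ` they are
`jK q₁` and `jK (q₁^p)` resp. `jK q₂`, `q₂^p = q₁` (`PairLT1.pair_lt`); so `(α, β)` is a place `x` of `FF p`
(`PlaceExists1.exists_place_of_tate`), `G_ℚ`-fixed (`Unique2.galois_smul_eq_of_typed`), of type `∞`
at `2` and `3`, hence not of type `0` at `A` (`PlaceCore1.place_core_inf`).
-/
import Mathlib
import Fermat.Agent.MS.PLACE.PairLT1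
import Fermat.Agent.MS.CORE.PlaceCore1
import Fermat.Agent.MS.TATE.AdaptedEmb3
import Fermat.Agent.MZ.MOD.PlaceExists1
import Fermat.Agent.MZ.MOD.RatPoint5
import Fermat.Agent.MZ.MOD.TateLTFinal4
import Fermat.Agent.FF.BASE.Place2

set_option autoImplicit false
set_option linter.unusedSectionVars false
set_option linter.unusedVariables false
set_option linter.style.longLine false
set_option linter.style.haveILetI false
set_option synthInstance.maxHeartbeats 400000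
set_option maxHeartbeats 1000000

open AlgebraicCurve ModularCurve
open WeierstrassCurve WeierstrassCurve.Affine
open Fermat.Agent.X0
open Fermat.Agent.MZ.CUSP.CuspPlaces1
open Fermat.Agent.MZ.MOD.Types2
open Fermat.Agent.MZ.MOD.VeluDef4 Fermat.Agent.MZ.MOD.RedType5 Fermat.Agent.MZ.MOD.LTTransport5
open Fermat.Agent.MZ.MOD.ZeroComp5 Fermat.Agent.MZ.MOD.LocalGlobal5 Fermat.Agent.MZ.MOD.RatPoint5
open Fermat.Agent.MS.PLACE.PairLT1 Fermat.Agent.MS.TATE.AdaptedEmb3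

namespace Fermat.Agent.MS.PLACE.CanStep1

local notation "Qb" => AlgebraicClosure ℚ

noncomputable section

/-! ### the `x`-coordinates of a cyclic subgroup do not depend on the generator -/

section XS

variable {F : Type*} [Field F] [DecidableEq F]

theorem xsOf_subset_of_mem {W : WeierstrassCurve F} (Q R : W.toAffine.Point) (M : ℕ)
    (hQ : M • Q = 0) (hR : addOrderOf R = M) (hRQ : R ∈ AddSubgroup.zmultiples Q) :
    xsOf R M ⊆ xsOf Q M := by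
  intro x hx
  rw [xsOf, Finset.mem_image] at hx ⊢
  obtain ⟨k, hk, rfl⟩ := hx
  rw [Finset.mem_Ico] at hk
  obtain ⟨n, hn⟩ := AddSubgroup.mem_zmultiples_iff.mp hRQ
  have hM : 0 < M := by omega
  have hMz : (0 : ℤ) < (M : ℤ) := by exact_mod_cast hM
  set m : ℕ := ((k : ℤ) * n % (M : ℤ)).toNat with hm
  have hmM : (m : ℤ) = (k : ℤ) * n % (M : ℤ) :=
    Int.toNat_of_nonneg (Int.emod_nonneg _ hMz.ne')
  have hMQ : (M : ℤ) • Q = 0 := by rw [natCast_zsmul]; exact hQ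
  have hkR : k • R = m • Q := by
    rw [← hn, ← natCast_zsmul (n • Q) k, ← mul_zsmul, ← natCast_zsmul Q m, hmM]
    conv_lhs => rw [← Int.emod_add_mul_ediv ((k : ℤ) * n) (M : ℤ)]
    rw [add_zsmul, mul_zsmul', hMQ, zsmul_zero, add_zero]
  have hm0 : m ≠ 0 := by
    intro h0
    rw [h0, zero_smul] at hkR
    have hdvd : addOrderOf R ∣ k := addOrderOf_dvd_iff_nsmul_eq_zero.mpr hkR
    rw [hR] at hdvd
    have := Nat.le_of_dvd (by omega) hdvd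
    omega
  have hmlt : m < M := by
    have h1 : (k : ℤ) * n % (M : ℤ) < (M : ℤ) := Int.emod_lt_of_pos _ hMz
    rw [← hmM] at h1
    exact_mod_cast h1
  exact ⟨m, Finset.mem_Ico.mpr ⟨Nat.one_le_iff_ne_zero.mpr hm0, hmlt⟩, by rw [hkR]⟩

end XS

/-! ### rationality of the Vélu invariant of a stable cyclic subgroup -/

theorem addOrderOf_galois_smul (W' : WeierstrassCurve ℚ) (σ : Qb ≃ₐ[ℚ] Qb) (Q : (W'⁄Qb).Point) :
    addOrderOf (σ • Q) = addOrderOf Q := by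
  rw [Point.algEquiv_smul_def]
  exact addOrderOf_injective (Point.map (W' := W') σ.toAlgHom) (Point.map_injective _) Q

theorem exists_rat_veluJ_of_stable (W' : WeierstrassCurve ℚ) (Q : (W'⁄Qb).Point) (M : ℕ)
    (hQ : addOrderOf Q = M)
    (hstab : ∀ σ : Qb ≃ₐ[ℚ] Qb, σ • Q ∈ AddSubgroup.zmultiples Q) :
    ∃ β₀ : ℚ, veluJ (W'⁄Qb) (xsOf Q M) = (β₀ : Qb) := by
  classical
  obtain ⟨β₀, hβ₀⟩ := exists_rat_of_fixed (veluJ (W'⁄Qb) (xsOf Q M)) fun σ => by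
    have h2 := veluJ_map_field W' (σ.toAlgHom : Qb →ₐ[ℚ] Qb) Q M
    have hsub : xsOf (Point.map (W' := W') σ.toAlgHom Q) M ⊆ xsOf Q M := by
      rw [← Point.algEquiv_smul_def]
      refine xsOf_subset_of_mem Q (σ • Q) M ?_ ?_ (hstab σ)
      · rw [← hQ]; exact addOrderOf_nsmul_eq_zero Q
      · rw [addOrderOf_galois_smul, hQ]
    have h3 : xsOf (Point.map (W' := W') σ.toAlgHom Q) M = xsOf Q M := by
      refine Finset.eq_of_subset_of_card_le hsub ?_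
      rw [xsOf_map_field]
      exact (Finset.card_image_of_injective _ (σ.toAlgHom : Qb →ₐ[ℚ] Qb).injective).ge
    rw [h3] at h2
    exact h2.symm
  exact ⟨β₀, hβ₀.symm⟩

/-! ### the local evaluation at an adapted embedding -/

section Local

variable {K : Type*} [NormedField K] [IsUltrametricDist K] [CharZero K] [DecidableEq K]

theorem mult_facts {r : ℕ} (hK : ∀ n : ℤ, ‖(n : K)‖ < 1 ↔ (r : ℤ) ∣ n) (W : WeierstrassCurve ℤ)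
    (hΔ0 : W.Δ ≠ 0) (hΔ : (r : ℤ) ∣ W.Δ) (hc4 : ¬ (r : ℤ) ∣ W.c₄) :
    IsIntegralW ((W.map (Int.castRingHom ℚ))⁄K) ∧ ‖((W.map (Int.castRingHom ℚ))⁄K).c₄‖ = 1 ∧
      ((W.map (Int.castRingHom ℚ))⁄K).Δ ≠ 0 ∧ ‖((W.map (Int.castRingHom ℚ))⁄K).Δ‖ < 1 := by
  rw [baseChange_eq_map_int]
  have hc4K : (W.map (Int.castRingHom K)).c₄ = ((W.c₄ : ℤ) : K) := by
    rw [WeierstrassCurve.map_c₄, eq_intCast]
  have hΔK : (W.map (Int.castRingHom K)).Δ = ((W.Δ : ℤ) : K) := by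
    rw [WeierstrassCurve.map_Δ, eq_intCast]
  refine ⟨isIntegralW_map_int W, ?_, ?_, ?_⟩
  · rw [hc4K]
    exact le_antisymm (IsUltrametricDist.norm_intCast_le_one K _)
      (not_lt.mp fun hlt => hc4 ((hK _).mp hlt))
  · rw [hΔK]
    exact Int.cast_ne_zero.mpr hΔ0
  · rw [hΔK]
    exact (hK _).mpr hΔ

/-- **the pair `(j(E/⟨pQ⟩), j(E/⟨Q⟩))` at an adapted embedding.** -/
theorem local_pair {r p : ℕ} (hp : p.Prime) (k : ℕ)
    (hK : ∀ n : ℤ, ‖(n : K)‖ < 1 ↔ (r : ℤ) ∣ n) {jT : K → K}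
    (hinj : ∀ q q' : K, q ≠ 0 → ‖q‖ < 1 → q' ≠ 0 → ‖q'‖ < 1 → jT q = jT q' → q = q')
    (h1 : LTNStatement jT (p ^ k)) (h2 : LTNStatement jT (p ^ (k + 1)))
    (W : WeierstrassCurve ℤ) (hΔ0 : W.Δ ≠ 0) (hΔ : (r : ℤ) ∣ W.Δ) (hc4 : ¬ (r : ℤ) ∣ W.c₄)
    {A : ValuationSubring Qb} {f : Qb →ₐ[ℚ] K} (hf : Adapted A f)
    (Q : ((W.map (Int.castRingHom ℚ))⁄Qb).Point) (hQ : addOrderOf Q = p ^ (k + 1))
    (hcan : W.InZeroComponentAt A (p • Q)) :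
    ∃ q₁ : K, q₁ ≠ 0 ∧ ‖q₁‖ < 1 ∧
      f (veluJ ((W.map (Int.castRingHom ℚ))⁄Qb) (xsOf (p • Q) (p ^ k))) = jT q₁ ∧
      ((W.InZeroComponentAt A Q ∧
          f (veluJ ((W.map (Int.castRingHom ℚ))⁄Qb) (xsOf Q (p ^ (k + 1)))) = jT (q₁ ^ p)) ∨
        (¬ W.InZeroComponentAt A Q ∧ ∃ q₂ : K, q₂ ≠ 0 ∧ ‖q₂‖ < 1 ∧ q₂ ^ p = q₁ ∧
          f (veluJ ((W.map (Int.castRingHom ℚ))⁄Qb) (xsOf Q (p ^ (k + 1)))) = jT q₂)) := by
  obtain ⟨hW, h4, hΔ0K, hΔ1K⟩ := mult_facts (K := K) hK W hΔ0 hΔ hc4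
  have hordK : addOrderOf (Point.map (W' := (W.map (Int.castRingHom ℚ))) f Q) = p ^ (k + 1) := by
    rw [addOrderOf_injective (Point.map (W' := (W.map (Int.castRingHom ℚ))) f)
      (Point.map_injective f) Q, hQ]
  have hcanK : ¬ RedSingPt ((W.map (Int.castRingHom ℚ))⁄K)
      (p • Point.map (W' := (W.map (Int.castRingHom ℚ))) f Q) := by
    rw [← map_nsmul]
    exact (inZeroComponentAt_iff_map W hf (p • Q)).mp hcan
  obtain ⟨q₁, hq₁0, hq₁1, hv₁, hcase⟩ := pair_lt hp k hinj h1 h2 _ hW h4 hΔ0K hΔ1K _ hordK hcanK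
  rw [← map_nsmul, veluJ_map] at hv₁
  refine ⟨q₁, hq₁0, hq₁1, hv₁, ?_⟩
  rcases hcase with ⟨hns, hv₂⟩ | ⟨hs, q₂, hq₂0, hq₂1, hq₂p, hv₂⟩
  · rw [veluJ_map] at hv₂
    exact Or.inl ⟨(inZeroComponentAt_iff_map W hf Q).mpr hns, hv₂⟩
  · rw [veluJ_map] at hv₂
    exact Or.inr ⟨fun hin => (inZeroComponentAt_iff_map W hf Q).mp hin hs, q₂, hq₂0, hq₂1, hq₂p,
      hv₂⟩

end Local

/-! ### the global step -/

open Fermat.Agent.MZ.MOD in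
/-- **the local input**: the Tate–Vélu theorem at all levels `p^m`, over `ℂ_r`, `r ≠ p`. -/
def LTNProp (p : ℕ) : Prop :=
  ∀ (r : ℕ) [Fact r.Prime], r ≠ p → ∀ (inst : DecidableEq ℂ_[r]) (m : ℕ),
    @LTNStatement ℂ_[r] _ _ inst TateCurve4.jK (p ^ m)

open Fermat.Agent.MZ.MOD in
/-- the valuation types of `(α, β) = (j(E/⟨pQ⟩), j(E/⟨Q⟩))` at a multiplicative place. -/
theorem types_at {p : ℕ} (hp : p.Prime) (hLTN : LTNProp p) (W : WeierstrassCurve ℤ) (hΔ0 : W.Δ ≠ 0)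
    (k : ℕ) (Q : ((W.map (Int.castRingHom ℚ))⁄Qb).Point) (hQ : addOrderOf Q = p ^ (k + 1))
    (α₀ β₀ : ℚ)
    (hα : veluJ ((W.map (Int.castRingHom ℚ))⁄Qb) (xsOf (p • Q) (p ^ k)) = (α₀ : Qb))
    (hβ : veluJ ((W.map (Int.castRingHom ℚ))⁄Qb) (xsOf Q (p ^ (k + 1))) = (β₀ : Qb))
    {r : ℕ} (hr : r.Prime) (hrp : r ≠ p) (hΔ : (r : ℤ) ∣ W.Δ) (hc4 : ¬ (r : ℤ) ∣ W.c₄)
    {A : ValuationSubring Qb} (hA : A.LiesOverPrime r) (hcan : W.InZeroComponentAt A (p • Q)) :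
    (α₀ : Qb) ∉ A ∧
      (W.InZeroComponentAt A Q → A.valuation (β₀ : Qb) = A.valuation (α₀ : Qb) ^ p) ∧
      (¬ W.InZeroComponentAt A Q → A.valuation (β₀ : Qb) ^ p = A.valuation (α₀ : Qb)) := by
  classical
  haveI : Fact r.Prime := ⟨hr⟩
  have hK := ZeroComp5.norm_intCast_padicComplex_lt_one_iff r
  obtain ⟨f, hf⟩ := exists_adapted r A hA
  obtain ⟨q₁, hq₁0, hq₁1, hv₁, hcase⟩ := local_pair (K := ℂ_[r]) hp k hK
    (fun q q' hq0 hq1 hq'0 hq'1 h => QFromJ5.jK_injective hq0 hq1 hq'0 hq'1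
      (by rw [← JacobiK1.jK_eq q hq1, ← JacobiK1.jK_eq q' hq'1]; exact h))
    (hLTN r hrp _ k) (hLTN r hrp _ (k + 1)) W hΔ0 hΔ hc4 hf Q hQ hcan
  rw [hα, map_ratCast] at hv₁
  have hnα : ‖(α₀ : ℂ_[r])‖ = ‖q₁‖⁻¹ := by rw [hv₁, TateLTFinal4.norm_jK q₁ hq₁0 hq₁1]
  have hα1 : 1 < ‖(α₀ : ℂ_[r])‖ := by
    rw [hnα]
    exact (one_lt_inv₀ (norm_pos_iff.mpr hq₁0)).mpr hq₁1
  obtain ⟨t1, t2, t3⟩ := val_of_norm (p := p) hr hK hA α₀ β₀ hα1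
  refine ⟨t1, fun hin => t2 ?_, fun hnin => t3 ?_⟩
  · rcases hcase with ⟨-, hv₂⟩ | ⟨hn, -⟩
    · rw [hβ, map_ratCast] at hv₂
      have hq0 : q₁ ^ p ≠ 0 := pow_ne_zero _ hq₁0
      have hq1 : ‖q₁ ^ p‖ < 1 := by
        rw [norm_pow]
        exact pow_lt_one₀ (norm_nonneg _) hq₁1 hp.ne_zero
      rw [hv₂, TateLTFinal4.norm_jK _ hq0 hq1, hnα, norm_pow, inv_pow]
    · exact absurd hin hn
  · rcases hcase with ⟨hin, -⟩ | ⟨-, q₂, hq₂0, hq₂1, hq₂p, hv₂⟩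
    · exact absurd hin hnin
    · rw [hβ, map_ratCast] at hv₂
      rw [hv₂, TateLTFinal4.norm_jK _ hq₂0 hq₂1, hnα, inv_pow, ← norm_pow, hq₂p]

theorem galois_smul_nsmul (W' : WeierstrassCurve ℚ) (σ : Qb ≃ₐ[ℚ] Qb) (n : ℕ)
    (Q : (W'⁄Qb).Point) : σ • (n • Q) = n • (σ • Q) := by
  rw [Point.algEquiv_smul_def, Point.algEquiv_smul_def, map_nsmul]

theorem stable_nsmul (W' : WeierstrassCurve ℚ) (n : ℕ) (Q : (W'⁄Qb).Point)
    (hstab : ∀ σ : Qb ≃ₐ[ℚ] Qb, σ • Q ∈ AddSubgroup.zmultiples Q) (σ : Qb ≃ₐ[ℚ] Qb) :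
    σ • (n • Q) ∈ AddSubgroup.zmultiples (n • Q) := by
  obtain ⟨m, hm⟩ := AddSubgroup.mem_zmultiples_iff.mp (hstab σ)
  rw [galois_smul_nsmul, ← hm, AddSubgroup.mem_zmultiples_iff]
  exact ⟨m, by rw [← natCast_zsmul, ← natCast_zsmul, smul_comm]⟩

open Fermat.Agent.MZ.MOD Fermat.Agent.MS.CORE.PlaceCore1 in
/-- **the global canonicity step.** -/
theorem can_step {p : ℕ} [NeZero p] (hp : p.Prime) (hp' : p ∉ ({2, 3, 5, 7, 13} : Finset ℕ))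
    (hLTN : LTNProp p) (W : WeierstrassCurve ℤ) (hΔ0 : W.Δ ≠ 0)
    (h2Δ : (2 : ℤ) ∣ W.Δ) (h2c₄ : ¬ (2 : ℤ) ∣ W.c₄) (h3Δ : (3 : ℤ) ∣ W.Δ) (h3c₄ : ¬ (3 : ℤ) ∣ W.c₄)
    (k : ℕ) (Q : ((W.map (Int.castRingHom ℚ))⁄Qb).Point) (hQ : addOrderOf Q = p ^ (k + 1))
    (hstab : ∀ σ : Qb ≃ₐ[ℚ] Qb, σ • Q ∈ AddSubgroup.zmultiples Q)
    (hcan : ∀ r : ℕ, r.Prime → r ≠ p → (r : ℤ) ∣ W.Δ → ¬ (r : ℤ) ∣ W.c₄ →
      ∀ A : ValuationSubring Qb, A.LiesOverPrime r → W.InZeroComponentAt A (p • Q))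
    (A2 A3 : ValuationSubring Qb) (hA2 : A2.LiesOverPrime 2) (hA3 : A3.LiesOverPrime 3)
    (h2 : W.InZeroComponentAt A2 Q) (h3 : W.InZeroComponentAt A3 Q)
    {ℓ : ℕ} (hℓ : ℓ.Prime) (hℓp : ℓ ≠ p) (hℓ2 : ℓ ≠ 2) (hℓ3 : ℓ ≠ 3) (hE0 : p ≤ 2 * ℓ - 1)
    (hℓΔ : (ℓ : ℤ) ∣ W.Δ) (hℓc₄ : ¬ (ℓ : ℤ) ∣ W.c₄)
    (A : ValuationSubring Qb) (hA : A.LiesOverPrime ℓ) : W.InZeroComponentAt A Q := by
  classical
  have hp2 : (2 : ℕ) ≠ p := by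
    rintro rfl
    simp at hp'
  have hp3 : (3 : ℕ) ≠ p := by
    rintro rfl
    simp at hp'
  -- the order of `p • Q`
  have hord1 : addOrderOf (p • Q) = p ^ k := by
    rw [addOrderOf_nsmul' Q hp.ne_zero, hQ, pow_succ, Nat.gcd_eq_right (Dvd.intro_left _ rfl),
      Nat.mul_div_cancel _ hp.pos]
  -- rationality
  obtain ⟨α₀, hα⟩ := exists_rat_veluJ_of_stable (W.map (Int.castRingHom ℚ)) (p • Q) (p ^ k) hord1
    (stable_nsmul _ p Q hstab)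
  obtain ⟨β₀, hβ⟩ := exists_rat_veluJ_of_stable (W.map (Int.castRingHom ℚ)) Q (p ^ (k + 1)) hQ hstab
  -- the types
  have htypes : ∀ {r : ℕ}, r.Prime → r ≠ p → (r : ℤ) ∣ W.Δ → ¬ (r : ℤ) ∣ W.c₄ →
      ∀ {A' : ValuationSubring Qb}, A'.LiesOverPrime r →
      (α₀ : Qb) ∉ A' ∧
        (W.InZeroComponentAt A' Q → A'.valuation (β₀ : Qb) = A'.valuation (α₀ : Qb) ^ p) ∧
        (¬ W.InZeroComponentAt A' Q → A'.valuation (β₀ : Qb) ^ p = A'.valuation (α₀ : Qb)) :=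
    fun {r} hr hrp hrΔ hrc {A'} hA' =>
      types_at hp hLTN W hΔ0 k Q hQ α₀ β₀ hα hβ hr hrp hrΔ hrc hA' (hcan r hr hrp hrΔ hrc A' hA')
  -- the place
  obtain ⟨x, hxα, hxβ⟩ : ∃ x : Place Kbar (FF p),
      0 < x.ord (jF p - algebraMap Kbar (FF p) (α₀ : Qb)) ∧
        0 < x.ord (jNF p - algebraMap Kbar (FF p) (β₀ : Qb)) := by
    haveI : Fact (Nat.Prime 2) := ⟨Nat.prime_two⟩
    have hK := ZeroComp5.norm_intCast_padicComplex_lt_one_iff 2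
    obtain ⟨f, hf⟩ := exists_adapted 2 A2 hA2
    obtain ⟨q₁, hq₁0, hq₁1, hv₁, hcase⟩ := local_pair (K := ℂ_[2]) hp k hK
      (fun q q' hq0 hq1 hq'0 hq'1 h => QFromJ5.jK_injective hq0 hq1 hq'0 hq'1
        (by rw [← JacobiK1.jK_eq q hq1, ← JacobiK1.jK_eq q' hq'1]; exact h))
      (hLTN 2 hp2 _ k) (hLTN 2 hp2 _ (k + 1)) W hΔ0 h2Δ h2c₄ hf Q hQ
      (hcan 2 Nat.prime_two hp2 h2Δ h2c₄ A2 hA2)
    rcases hcase with ⟨-, hv₂⟩ | ⟨hn, -⟩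
    · rw [hα] at hv₁
      rw [hβ] at hv₂
      have hq1p : ‖q₁ ^ p‖ < 1 := by
        rw [norm_pow]
        exact pow_lt_one₀ (norm_nonneg _) hq₁1 hp.ne_zero
      refine Fermat.Agent.MZ.MOD.PlaceExists1.exists_place_of_tate p hp (f : Qb →+* ℂ_[2]) q₁
        hq₁0 hq₁1 _ _ (Or.inl ⟨?_, ?_⟩)
      · rw [← JacobiK1.jK_eq q₁ hq₁1]
        exact hv₁.symm
      · rw [← JacobiK1.jK_eq _ hq1p]
        exact hv₂.symm
    · exact absurd h2 hn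
  -- `G_ℚ`-fixed
  obtain ⟨a1, a2, a3⟩ := htypes Nat.prime_two hp2 h2Δ h2c₄ hA2
  obtain ⟨b1, b2, b3⟩ := htypes Nat.prime_three hp3 h3Δ h3c₄ hA3
  have hxfix : ∀ σ : Kbar ≃ₐ[ℚ] Kbar,
      arithmeticGalois (modularFunctionFieldFull p) σ • x = x := fun σ =>
    Unique2.galois_smul_eq_of_typed hp Nat.prime_two hp2 hA2 x _ _ (fun τ => map_ratCast τ _)
      (fun τ => map_ratCast τ _) a1 hxα hxβ (Or.inr (a2 h2)) σ
  have hi2 : IsInfType p A2 x := ⟨_, _, a1, hxα, hxβ, a2 h2⟩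
  have hi3 : IsInfType p A3 x := ⟨_, _, b1, hxα, hxβ, b2 h3⟩
  have hnz := place_core_inf hp hp' x hxfix A2 A3 hA2 hA3 hi2 hi3 hℓ hℓp hℓ2 hℓ3 hE0 A hA
  by_contra hnot
  obtain ⟨c1, c2, c3⟩ := htypes hℓ hℓp hℓΔ hℓc₄ hA
  exact hnz ⟨_, _, c1, hxα, hxβ, c3 hnot⟩

end

end Fermat.Agent.MS.PLACE.CanStep1
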