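/-
Programme MS (S12, Mazur), chapter PLACE (helper1): **the global canonicity step, unconditional.**

`W / ℤ` multiplicative at `2` and `3`, `p ∉ {2,3,5,7,13}`, `Q ∈ E(ℚ̄)` of exact order `p^(k+1)` with
`⟨Q⟩` stable under `G_ℚ`, and `Q` in the zero component at one place over `2` and one over `3`.  Then
`Q` is in the zero component at every place `A ∣ ℓ`, `ℓ ∉ {2, 3, p}` multiplicative with
`p ≤ 2ℓ - 1` (`can_stepU`).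

Same route as `CanStep1.can_step`, with the local input `LTPk4.ltPairStatement` (helper4) over
`ℂ_r`, `r ≠ p`.
-/
import Mathlib
import Fermat.Agent.MS.PLACE.CanStep1
import Fermat.Agent.MS.TATE.LTPk4
import Fermat.Agent.MZ.MOD.ModEqGlobal4

set_option autoImplicit false
set_option linter.unusedSectionVars false
set_option linter.unusedVariables false
set_option linter.style.longLine false
set_option linter.style.haveILetI false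
set_option synthInstance.maxHeartbeats 400000
set_option maxHeartbeats 1000000

open AlgebraicCurve ModularCurve
open WeierstrassCurve WeierstrassCurve.Affine
open Fermat.Agent.X0
open Fermat.Agent.MZ.CUSP.CuspPlaces1
open Fermat.Agent.MZ.MOD.Types2
open Fermat.Agent.MZ.MOD.VeluDef4 Fermat.Agent.MZ.MOD.RedType5 Fermat.Agent.MZ.MOD.LTTransport5
open Fermat.Agent.MZ.MOD.ZeroComp5 Fermat.Agent.MZ.MOD.LocalGlobal5 Fermat.Agent.MZ.MOD.RatPoint5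
open Fermat.Agent.MS.TATE.AdaptedEmb3 Fermat.Agent.MS.TATE.LTPk4
open Fermat.Agent.MS.PLACE.CanStep1

namespace Fermat.Agent.MS.PLACE.CanStepU1

local notation "Qb" => AlgebraicClosure ℚ

noncomputable section

section Local

variable {K : Type*} [NormedField K] [IsUltrametricDist K] [CompleteSpace K] [CharZero K]
  [DecidableEq K]

/-- **the pair `(j(E/⟨pQ⟩), j(E/⟨Q⟩))` at an adapted embedding.** -/
theorem local_pairU {r p : ℕ} (k : ℕ)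
    (hK : ∀ n : ℤ, ‖(n : K)‖ < 1 ↔ (r : ℤ) ∣ n) {jT : K → K}
    (hLT : LTPairStatement jT p k)
    (W : WeierstrassCurve ℤ) (hΔ0 : W.Δ ≠ 0) (hΔ : (r : ℤ) ∣ W.Δ) (hc4 : ¬ (r : ℤ) ∣ W.c₄)
    {A : ValuationSubring Qb} {f : Qb →ₐ[ℚ] K} (hf : Adapted A f)
    (Q : ((W.map (Int.castRingHom ℚ))⁄Qb).Point) (hQ : addOrderOf Q = p ^ (k + 1)) :
    ∃ q₁ q₂ : K, q₁ ≠ 0 ∧ ‖q₁‖ < 1 ∧
      f (veluJ ((W.map (Int.castRingHom ℚ))⁄Qb) (xsOf (p • Q) (p ^ k))) = jT q₁ ∧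
      f (veluJ ((W.map (Int.castRingHom ℚ))⁄Qb) (xsOf Q (p ^ (k + 1)))) = jT q₂ ∧
      ((q₂ = q₁ ^ p ∧ W.InZeroComponentAt A Q) ∨ (q₂ ^ p = q₁ ∧ ¬ W.InZeroComponentAt A Q)) := by
  obtain ⟨hW, h4, hΔ0K, hΔ1K⟩ := mult_facts (K := K) hK W hΔ0 hΔ hc4
  have hordK : addOrderOf (Point.map (W' := (W.map (Int.castRingHom ℚ))) f Q) = p ^ (k + 1) := by
    rw [addOrderOf_injective (Point.map (W' := (W.map (Int.castRingHom ℚ))) f)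
      (Point.map_injective f) Q, hQ]
  obtain ⟨q₁, q₂, hq₁0, hq₁1, hv₁, hv₂, hcase⟩ := hLT _ hW h4 hΔ0K hΔ1K _ hordK
  rw [← map_nsmul, veluJ_map] at hv₁
  rw [veluJ_map] at hv₂
  refine ⟨q₁, q₂, hq₁0, hq₁1, hv₁, hv₂, ?_⟩
  rcases hcase with ⟨h, hns⟩ | ⟨h, hs⟩
  · exact Or.inl ⟨h, (inZeroComponentAt_iff_map W hf Q).mpr hns⟩
  · exact Or.inr ⟨h, fun hin => (inZeroComponentAt_iff_map W hf Q).mp hin hs⟩

end Local

open Fermat.Agent.MZ.MOD in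
/-- the pair at `ℂ_r`, `r ≠ p` a multiplicative prime. -/
theorem pair_at {p : ℕ} (hp : p.Prime) (hp3 : 3 < p) (W : WeierstrassCurve ℤ) (hΔ0 : W.Δ ≠ 0)
    (k : ℕ) (Q : ((W.map (Int.castRingHom ℚ))⁄Qb).Point) (hQ : addOrderOf Q = p ^ (k + 1))
    {r : ℕ} [Fact r.Prime] (hrp : r ≠ p) (hΔ : (r : ℤ) ∣ W.Δ) (hc4 : ¬ (r : ℤ) ∣ W.c₄)
    {A : ValuationSubring Qb} (hA : A.LiesOverPrime r) :
    ∃ (f : Qb →ₐ[ℚ] ℂ_[r]) (q₁ q₂ : ℂ_[r]), q₁ ≠ 0 ∧ ‖q₁‖ < 1 ∧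
      f (veluJ ((W.map (Int.castRingHom ℚ))⁄Qb) (xsOf (p • Q) (p ^ k))) = TateCurve4.jK q₁ ∧
      f (veluJ ((W.map (Int.castRingHom ℚ))⁄Qb) (xsOf Q (p ^ (k + 1)))) = TateCurve4.jK q₂ ∧
      ((q₂ = q₁ ^ p ∧ W.InZeroComponentAt A Q) ∨ (q₂ ^ p = q₁ ∧ ¬ W.InZeroComponentAt A Q)) := by
  classical
  haveI : Fact p.Prime := ⟨hp⟩
  have hK := ZeroComp5.norm_intCast_padicComplex_lt_one_iff r
  have hpK : ‖((p : ℕ) : ℂ_[r])‖ = 1 := ModEqGlobal4.norm_natCast_padicComplex r hp hrp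
  obtain ⟨f, hf⟩ := exists_adapted r A hA
  obtain ⟨q₁, q₂, h⟩ := local_pairU (K := ℂ_[r]) k hK (ltPairStatement hp3 hpK k) W hΔ0 hΔ hc4 hf Q hQ
  exact ⟨f, q₁, q₂, h⟩

open Fermat.Agent.MZ.MOD in
/-- the valuation types of `(α, β) = (j(E/⟨pQ⟩), j(E/⟨Q⟩))` at a multiplicative place. -/
theorem types_atU {p : ℕ} (hp : p.Prime) (hp3 : 3 < p) (W : WeierstrassCurve ℤ) (hΔ0 : W.Δ ≠ 0)
    (k : ℕ) (Q : ((W.map (Int.castRingHom ℚ))⁄Qb).Point) (hQ : addOrderOf Q = p ^ (k + 1))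
    (α₀ β₀ : ℚ)
    (hα : veluJ ((W.map (Int.castRingHom ℚ))⁄Qb) (xsOf (p • Q) (p ^ k)) = (α₀ : Qb))
    (hβ : veluJ ((W.map (Int.castRingHom ℚ))⁄Qb) (xsOf Q (p ^ (k + 1))) = (β₀ : Qb))
    {r : ℕ} (hr : r.Prime) (hrp : r ≠ p) (hΔ : (r : ℤ) ∣ W.Δ) (hc4 : ¬ (r : ℤ) ∣ W.c₄)
    {A : ValuationSubring Qb} (hA : A.LiesOverPrime r) :
    (α₀ : Qb) ∉ A ∧
      (W.InZeroComponentAt A Q → A.valuation (β₀ : Qb) = A.valuation (α₀ : Qb) ^ p) ∧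
      (¬ W.InZeroComponentAt A Q → A.valuation (β₀ : Qb) ^ p = A.valuation (α₀ : Qb)) := by
  classical
  haveI : Fact r.Prime := ⟨hr⟩
  have hK := ZeroComp5.norm_intCast_padicComplex_lt_one_iff r
  obtain ⟨f, q₁, q₂, hq₁0, hq₁1, hv₁, hv₂, hcase⟩ := pair_at hp hp3 W hΔ0 k Q hQ hrp hΔ hc4 hA
  rw [hα, map_ratCast] at hv₁
  rw [hβ, map_ratCast] at hv₂
  have hnα : ‖(α₀ : ℂ_[r])‖ = ‖q₁‖⁻¹ := by rw [hv₁, TateLTFinal4.norm_jK q₁ hq₁0 hq₁1]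
  have hα1 : 1 < ‖(α₀ : ℂ_[r])‖ := by
    rw [hnα]
    exact (one_lt_inv₀ (norm_pos_iff.mpr hq₁0)).mpr hq₁1
  obtain ⟨t1, t2, t3⟩ := val_of_norm (p := p) hr hK hA α₀ β₀ hα1
  refine ⟨t1, fun hin => t2 ?_, fun hnin => t3 ?_⟩
  · rcases hcase with ⟨h, -⟩ | ⟨-, hn⟩
    · have hq0 : q₁ ^ p ≠ 0 := pow_ne_zero _ hq₁0
      have hq1 : ‖q₁ ^ p‖ < 1 := by
        rw [norm_pow]
        exact pow_lt_one₀ (norm_nonneg _) hq₁1 hp.ne_zero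
      rw [hv₂, h, TateLTFinal4.norm_jK _ hq0 hq1, hnα, norm_pow, inv_pow]
    · exact absurd hin hn
  · rcases hcase with ⟨-, hin⟩ | ⟨h, -⟩
    · exact absurd hin hnin
    · have hq₂0 : q₂ ≠ 0 := by
        rintro rfl
        rw [zero_pow hp.ne_zero] at h
        exact hq₁0 h.symm
      have hq₂1 : ‖q₂‖ < 1 := by
        by_contra hge
        rw [not_lt] at hge
        have : 1 ≤ ‖q₂‖ ^ p := one_le_pow₀ hge
        rw [← norm_pow, h] at this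
        linarith
      rw [hv₂, TateLTFinal4.norm_jK _ hq₂0 hq₂1, hnα, inv_pow, ← norm_pow, h]

open Fermat.Agent.MZ.MOD Fermat.Agent.MS.CORE.PlaceCore1 in
/-- **the global canonicity step, unconditional.** -/
theorem can_stepU {p : ℕ} [NeZero p] (hp : p.Prime) (hp' : p ∉ ({2, 3, 5, 7, 13} : Finset ℕ))
    (W : WeierstrassCurve ℤ) (hΔ0 : W.Δ ≠ 0)
    (h2Δ : (2 : ℤ) ∣ W.Δ) (h2c₄ : ¬ (2 : ℤ) ∣ W.c₄) (h3Δ : (3 : ℤ) ∣ W.Δ) (h3c₄ : ¬ (3 : ℤ) ∣ W.c₄)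
    (k : ℕ) (Q : ((W.map (Int.castRingHom ℚ))⁄Qb).Point) (hQ : addOrderOf Q = p ^ (k + 1))
    (hstab : ∀ σ : Qb ≃ₐ[ℚ] Qb, σ • Q ∈ AddSubgroup.zmultiples Q)
    (A2 A3 : ValuationSubring Qb) (hA2 : A2.LiesOverPrime 2) (hA3 : A3.LiesOverPrime 3)
    (h2 : W.InZeroComponentAt A2 Q) (h3 : W.InZeroComponentAt A3 Q)
    {ℓ : ℕ} (hℓ : ℓ.Prime) (hℓp : ℓ ≠ p) (hℓ2 : ℓ ≠ 2) (hℓ3 : ℓ ≠ 3) (hE0 : p ≤ 2 * ℓ - 1)
    (hℓΔ : (ℓ : ℤ) ∣ W.Δ) (hℓc₄ : ¬ (ℓ : ℤ) ∣ W.c₄)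
    (A : ValuationSubring Qb) (hA : A.LiesOverPrime ℓ) : W.InZeroComponentAt A Q := by
  classical
  have hp2 : (2 : ℕ) ≠ p := by
    rintro rfl
    simp at hp'
  have hp3 : (3 : ℕ) ≠ p := by
    rintro rfl
    simp at hp'
  have hp3' : 3 < p := by
    have := hp.two_le
    omega
  -- the order of `p • Q`
  have hord1 : addOrderOf (p • Q) = p ^ k := by
    rw [addOrderOf_nsmul' Q hp.ne_zero, hQ, pow_succ, Nat.gcd_eq_right (Dvd.intro_left _ rfl),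
      Nat.mul_div_cancel _ hp.pos]
  -- rationality
  obtain ⟨α₀, hα⟩ := exists_rat_veluJ_of_stable (W.map (Int.castRingHom ℚ)) (p • Q) (p ^ k) hord1
    (stable_nsmul _ p Q hstab)
  obtain ⟨β₀, hβ⟩ := exists_rat_veluJ_of_stable (W.map (Int.castRingHom ℚ)) Q (p ^ (k + 1)) hQ hstab
  -- the types
  have htypes : ∀ {r : ℕ}, r.Prime → r ≠ p → (r : ℤ) ∣ W.Δ → ¬ (r : ℤ) ∣ W.c₄ →
      ∀ {A' : ValuationSubring Qb}, A'.LiesOverPrime r →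
      (α₀ : Qb) ∉ A' ∧
        (W.InZeroComponentAt A' Q → A'.valuation (β₀ : Qb) = A'.valuation (α₀ : Qb) ^ p) ∧
        (¬ W.InZeroComponentAt A' Q → A'.valuation (β₀ : Qb) ^ p = A'.valuation (α₀ : Qb)) :=
    fun {r} hr hrp hrΔ hrc {A'} hA' =>
      types_atU hp hp3' W hΔ0 k Q hQ α₀ β₀ hα hβ hr hrp hrΔ hrc hA'
  -- the place
  obtain ⟨x, hxα, hxβ⟩ : ∃ x : Place Kbar (FF p),
      0 < x.ord (jF p - algebraMap Kbar (FF p) (α₀ : Qb)) ∧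
        0 < x.ord (jNF p - algebraMap Kbar (FF p) (β₀ : Qb)) := by
    haveI : Fact (Nat.Prime 2) := ⟨Nat.prime_two⟩
    obtain ⟨f, q₁, q₂, hq₁0, hq₁1, hv₁, hv₂, hcase⟩ :=
      pair_at hp hp3' W hΔ0 k Q hQ hp2 h2Δ h2c₄ hA2
    rcases hcase with ⟨h, -⟩ | ⟨-, hn⟩
    · rw [hα] at hv₁
      rw [hβ, h] at hv₂
      have hq1p : ‖q₁ ^ p‖ < 1 := by
        rw [norm_pow]
        exact pow_lt_one₀ (norm_nonneg _) hq₁1 hp.ne_zero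
      refine Fermat.Agent.MZ.MOD.PlaceExists1.exists_place_of_tate p hp (f : Qb →+* ℂ_[2]) q₁
        hq₁0 hq₁1 _ _ (Or.inl ⟨?_, ?_⟩)
      · rw [← JacobiK1.jK_eq q₁ hq₁1]
        exact hv₁.symm
      · rw [← JacobiK1.jK_eq _ hq1p]
        exact hv₂.symm
    · exact absurd h2 hn
  -- `G_ℚ`-fixed
  obtain ⟨a1, a2, a3⟩ := htypes Nat.prime_two hp2 h2Δ h2c₄ hA2
  obtain ⟨b1, b2, b3⟩ := htypes Nat.prime_three hp3 h3Δ h3c₄ hA3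
  have hxfix : ∀ σ : Kbar ≃ₐ[ℚ] Kbar,
      arithmeticGalois (modularFunctionFieldFull p) σ • x = x := fun σ =>
    Unique2.galois_smul_eq_of_typed hp Nat.prime_two hp2 hA2 x _ _ (fun τ => map_ratCast τ _)
      (fun τ => map_ratCast τ _) a1 hxα hxβ (Or.inr (a2 h2)) σ
  have hi2 : IsInfType p A2 x := ⟨_, _, a1, hxα, hxβ, a2 h2⟩
  have hi3 : IsInfType p A3 x := ⟨_, _, b1, hxα, hxβ, b2 h3⟩
  have hnz := place_core_inf hp hp' x hxfix A2 A3 hA2 hA3 hi2 hi3 hℓ hℓp hℓ2 hℓ3 hE0 A hA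
  by_contra hnot
  obtain ⟨c1, c2, c3⟩ := htypes hℓ hℓp hℓΔ hℓc₄ hA
  exact hnz ⟨_, _, c1, hxα, hxβ, c3 hnot⟩

end

end Fermat.Agent.MS.PLACE.CanStepU1
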