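/-
Programme MS (S12, Mazur), chapter PLACE (helper1): **canonicity everywhere from canonicity at the
small primes** — the glue of `(I-m)` in `T/iface/MS-MASTER`.

`W / ℤ` multiplicative at `2` and `3`, `p ∉ {2,3,5,7,13}`, `y ∈ E(ℚ̄)` of exact order `p^(k+1)` with
`⟨y⟩` `G_ℚ`-stable.  If `y` is in the zero component at every place over a multiplicative `ℓ ≠ p`
with `ℓ = 2`, `ℓ = 3` or `2ℓ - 1 < p` (the Frobenius / two-lines range), then every `x ∈ ⟨y⟩` is in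
the zero component at every place over every multiplicative `ℓ ≠ p` (`canAt_of_small`; the remaining
range `p ≤ 2ℓ - 1` is `CanStepU1.can_stepU`).
-/
import Mathlib
import Fermat.Agent.MS.PLACE.CanStepU1
import Fermat.Agent.MS.LOC.CanP5

set_option autoImplicit false
set_option linter.unusedSectionVars false
set_option linter.unusedVariables false
set_option linter.style.longLine false
set_option linter.style.haveILetI false
set_option synthInstance.maxHeartbeats 400000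
set_option maxHeartbeats 1000000

open WeierstrassCurve WeierstrassCurve.Affine
open Fermat.Agent.MS.PLACE.CanStepU1

namespace Fermat.Agent.MS.PLACE.CanAll1

local notation "Qb" => AlgebraicClosure ℚ

noncomputable section

/-- the zero component at a multiplicative place is closed under multiples, on torsion points of
order prime to `6`. -/
theorem inZero_of_mem_zmultiples {r : ℕ} (hr : r.Prime) (W : WeierstrassCurve ℤ) (hΔ0 : W.Δ ≠ 0)
    (hΔ : (r : ℤ) ∣ W.Δ) (hc4 : ¬ (r : ℤ) ∣ W.c₄) (A : ValuationSubring Qb) (hA : A.LiesOverPrime r)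
    (n : ℕ) [NeZero n] (h6 : Nat.Coprime n 6)
    (y : ((W.map (Int.castRingHom ℚ))⁄Qb).Point) (hy : n • y = 0) (hz : W.InZeroComponentAt A y)
    (x : ((W.map (Int.castRingHom ℚ))⁄Qb).Point) (hx : x ∈ AddSubgroup.zmultiples y) :
    W.InZeroComponentAt A x := by
  obtain ⟨T⟩ := Fermat.Agent.MS.LOC.CanP5.nonempty_torsParam_of_mult_gen hr W hΔ0 hΔ hc4 A hA n h6
  obtain ⟨m, rfl⟩ := AddSubgroup.mem_zmultiples_iff.mp hx
  rcases Int.eq_nat_or_neg m with ⟨j, rfl | rfl⟩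
  · rw [natCast_zsmul]
    exact T.inZero_nsmul hy hz j
  · rw [neg_zsmul, natCast_zsmul]
    have hj : n • (j • y) = 0 := by rw [smul_comm, hy, nsmul_zero]
    exact T.inZero_neg hj (T.inZero_nsmul hy hz j)

/-- **canonicity everywhere from canonicity at the small primes.** -/
theorem canAt_of_small {p : ℕ} [NeZero p] (hp : p.Prime) (hp' : p ∉ ({2, 3, 5, 7, 13} : Finset ℕ))
    (W : WeierstrassCurve ℤ) (hΔ0 : W.Δ ≠ 0)
    (h2Δ : (2 : ℤ) ∣ W.Δ) (h2c₄ : ¬ (2 : ℤ) ∣ W.c₄) (h3Δ : (3 : ℤ) ∣ W.Δ) (h3c₄ : ¬ (3 : ℤ) ∣ W.c₄)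
    (k : ℕ) (y : ((W.map (Int.castRingHom ℚ))⁄Qb).Point) (hy : addOrderOf y = p ^ (k + 1))
    (hstab : ∀ σ : Qb ≃ₐ[ℚ] Qb, σ • y ∈ AddSubgroup.zmultiples y)
    (hsmall : ∀ ℓ : ℕ, ℓ.Prime → ℓ ≠ p → (ℓ : ℤ) ∣ W.Δ → ¬ (ℓ : ℤ) ∣ W.c₄ →
      (ℓ = 2 ∨ ℓ = 3 ∨ 2 * ℓ - 1 < p) → ∀ A : ValuationSubring Qb, A.LiesOverPrime ℓ →
        W.InZeroComponentAt A y) :
    ∀ ℓ : ℕ, ℓ.Prime → ℓ ≠ p → (ℓ : ℤ) ∣ W.Δ → ¬ (ℓ : ℤ) ∣ W.c₄ →
      ∀ A : ValuationSubring Qb, A.LiesOverPrime ℓ →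
        ∀ x ∈ AddSubgroup.zmultiples y, W.InZeroComponentAt A x := by
  intro ℓ hℓ hℓp hℓΔ hℓc₄ A hA x hx
  have hp2 : (2 : ℕ) ≠ p := by
    rintro rfl
    simp at hp'
  have hp3 : (3 : ℕ) ≠ p := by
    rintro rfl
    simp at hp'
  haveI : Fact (Nat.Prime 2) := ⟨Nat.prime_two⟩
  haveI : Fact (Nat.Prime 3) := ⟨Nat.prime_three⟩
  -- `y` itself
  have hyA : W.InZeroComponentAt A y := by
    by_cases hs : ℓ = 2 ∨ ℓ = 3 ∨ 2 * ℓ - 1 < p
    · exact hsmall ℓ hℓ hℓp hℓΔ hℓc₄ hs A hA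
    · push Not at hs
      obtain ⟨hℓ2, hℓ3, hE0⟩ := hs
      have hA2 := Fermat.Agent.FF.BASE.Place2.liesOverPrime 2
      have hA3 := Fermat.Agent.FF.BASE.Place2.liesOverPrime 3
      exact can_stepU hp hp' W hΔ0 h2Δ h2c₄ h3Δ h3c₄ k y hy hstab _ _ hA2 hA3
        (hsmall 2 Nat.prime_two hp2 h2Δ h2c₄ (Or.inl rfl) _ hA2)
        (hsmall 3 Nat.prime_three hp3 h3Δ h3c₄ (Or.inr (Or.inl rfl)) _ hA3)
        hℓ hℓp hℓ2 hℓ3 hE0 hℓΔ hℓc₄ A hA
  -- multiples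
  have hp5 : 5 ≤ p := by
    simp only [Finset.mem_insert, Finset.mem_singleton, not_or] at hp'
    have := hp.two_le
    by_contra hlt
    have : p = 4 := by omega
    subst this
    exact absurd hp (by norm_num)
  have h6 : Nat.Coprime (p ^ (k + 1)) 6 := by
    refine Nat.Coprime.pow_left _ ?_
    rw [hp.coprime_iff_not_dvd]
    intro h6
    have h1 := Nat.le_of_dvd (by norm_num) h6
    have : p = 5 ∨ p = 6 := by omega
    rcases this with rfl | rfl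
    · norm_num at h6
    · exact absurd hp (by norm_num)
  haveI : NeZero (p ^ (k + 1)) := ⟨pow_ne_zero _ hp.ne_zero⟩
  exact inZero_of_mem_zmultiples hℓ W hΔ0 hℓΔ hℓc₄ A hA (p ^ (k + 1)) h6 y
    (by rw [← hy]; exact addOrderOf_nsmul_eq_zero y) hyA x hx

end

end Fermat.Agent.MS.PLACE.CanAll1
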