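/-
Programme MS (S12, Mazur), chapter PLACE (helper1): **canonicity propagates, at every multiplicative
prime** — `(I-m)` of `T/iface/MS-MASTER`, assembled.

`W / ℤ` multiplicative at `2` and `3`, `p ∉ {2,3,5,7,13}`, `D : CofData G_ℚ E(ℚ̄) p k (cycloExp p)`
(`k ≥ 1`) with `K_k` in the zero component at every place over every multiplicative `ℓ ≠ p`, and `C'`
a `G_ℚ`-stable complement of `C` in `V = p⁻¹K_k / K_k`.  Then `K_{k+1} = D.next C'` is again in the zero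
component at every place over every multiplicative `ℓ ≠ p` (`canAt_next`):

* `ℓ = 2`, `ℓ = 3` or `2ℓ - 1 < p` (⇒ `p ∤ ℓ - 1`): helper7's `CanNext7.inZero_next_of_not_one`
  (two stable lines + a Frobenius);
* `p ≤ 2ℓ - 1`, `ℓ ∉ {2,3}`: `CanStepU1.can_stepU` (the S15 core), through `CanAll1.canAt_of_small`.
-/
import Mathlib
import Fermat.Agent.MS.PLACE.CanAll1
import Fermat.Agent.MS.CAN.CanNext7

set_option autoImplicit false
set_option linter.unusedSectionVars false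
set_option linter.unusedVariables false
set_option linter.style.longLine false
set_option linter.style.haveILetI false
set_option synthInstance.maxHeartbeats 400000
set_option maxHeartbeats 1000000

open WeierstrassCurve WeierstrassCurve.Affine ExtCitation
open Fermat.Agent.MS.STEP.StepAlg8
open Fermat.Agent.MS.PLACE.CanAll1 Fermat.Agent.MS.CAN.CanNext7

namespace Fermat.Agent.MS.PLACE.CanAtNext1

local notation "Qb" => AlgebraicClosure ℚ
local notation "GQ" => (AlgebraicClosure ℚ ≃ₐ[ℚ] AlgebraicClosure ℚ)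

noncomputable section

/-- **(I-m)**: canonicity of `K_{k+1} = D.next C'` at every multiplicative prime `≠ p`. -/
theorem canAt_next {p : ℕ} [hpF : Fact p.Prime] [NeZero p]
    (hp' : p ∉ ({2, 3, 5, 7, 13} : Finset ℕ))
    (W : WeierstrassCurve ℤ) (hΔ0 : W.Δ ≠ 0)
    (h2Δ : (2 : ℤ) ∣ W.Δ) (h2c₄ : ¬ (2 : ℤ) ∣ W.c₄) (h3Δ : (3 : ℤ) ∣ W.Δ) (h3c₄ : ¬ (3 : ℤ) ∣ W.c₄)
    {k : ℕ} (hk : 1 ≤ k)
    (D : CofData GQ ((W.map (Int.castRingHom ℚ))⁄Qb).Point p k (cycloExp p))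
    (hcardp : Nat.card ↥(tors ((W.map (Int.castRingHom ℚ))⁄Qb).Point p) = p ^ 2)
    (hsurj : ∀ y ∈ D.K, ∃ x : ((W.map (Int.castRingHom ℚ))⁄Qb).Point, p • x = y)
    (hcan : ∀ ℓ : ℕ, ℓ.Prime → ℓ ≠ p → (ℓ : ℤ) ∣ W.Δ → ¬ (ℓ : ℤ) ∣ W.c₄ →
      ∀ A : ValuationSubring Qb, A.LiesOverPrime ℓ → ∀ x ∈ D.K, W.InZeroComponentAt A x)
    (C' : Submodule (ZMod p) D.V) (hcompl : IsCompl D.C C')
    (hC' : ∀ σ : GQ, ∀ v ∈ C', σ • v ∈ C') :
    ∀ ℓ : ℕ, ℓ.Prime → ℓ ≠ p → (ℓ : ℤ) ∣ W.Δ → ¬ (ℓ : ℤ) ∣ W.c₄ →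
      ∀ A : ValuationSubring Qb, A.LiesOverPrime ℓ → ∀ x ∈ D.next C', W.InZeroComponentAt A x := by
  have hp : p.Prime := hpF.out
  have hp5 : 5 ≤ p := by
    simp only [Finset.mem_insert, Finset.mem_singleton, not_or] at hp'
    have := hp.two_le
    by_contra hlt
    have : p = 4 := by omega
    subst this
    exact absurd hp (by norm_num)
  obtain ⟨y, hy, hKeq, hord⟩ := D.exists_gen_next hcardp hsurj C' hp hk hcompl
  have hyK : y ∈ D.next C' := by rw [hKeq]; exact AddSubgroup.mem_zmultiples y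
  have hstab : ∀ σ : GQ, σ • y ∈ AddSubgroup.zmultiples y := fun σ => by
    rw [← hKeq]
    exact D.next_stable C' hC' σ y hyK
  rw [hKeq]
  refine canAt_of_small hp hp' W hΔ0 h2Δ h2c₄ h3Δ h3c₄ k y hord hstab ?_
  intro ℓ hℓ hℓp hℓΔ hℓc₄ hs A hA
  have hr1 : ¬ p ∣ ℓ - 1 := by
    intro hdvd
    rcases hs with rfl | rfl | hlt
    · have := Nat.le_of_dvd (by norm_num) hdvd
      omega
    · have := Nat.le_of_dvd (by norm_num) hdvd
      omega
    · have h2 := hℓ.two_le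
      have := Nat.le_of_dvd (by omega) hdvd
      omega
  exact inZero_next_of_not_one hℓ hΔ0 hℓΔ hℓc₄ hA hp5 hℓp hr1 hk D hcardp hsurj
    (hcan ℓ hℓ hℓp hℓΔ hℓc₄ A hA) C' hcompl (fun σ _ v hv => hC' σ v hv) y hyK

end

end Fermat.Agent.MS.PLACE.CanAtNext1
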