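/-
Programme MS (S12, Mazur), chapter PLACE (helper1): **the two canonicity inputs of
`MS/STEP/Assemble8.s12_of_inputs`**, discharged.

* `canPropagate_of_mult` : `Assemble8.CanPropagateProp W p` for a semistable `W / ℤ`, multiplicative at
  `2` and `3`, `p ∉ {2,3,5,7,13}`  (`= CanAtNext1.canAt_next`);
* `baseCan_of_mult` : `Assemble8.BaseCanProp W p` in the same situation (helper7's
  `Base7.inZero_of_cofixed` for `ℓ ∈ {2,3}` or `2ℓ - 1 < p`, `CanAll1.canAt_of_small` with `k = 0`, i.e. the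
  S15 core `CanStepU1.can_stepU`, for `p ≤ 2ℓ - 1`);
* **`frey_canPropagate`**, **`frey_baseCan`** : both for `W := P.freyCurveInt`, from `17 ≤ P.p` and a
  cofixed line (`3 ∣ abc` by helper4's `SmallPrimes4.three_dvd_abc`), in the exact shape of the
  arguments `hC`, `hbase` of `Assemble8.s12_of_inputs`.
-/
import Mathlib
import Fermat.Agent.MS.PLACE.CanAtNext1
import Fermat.Agent.MS.CAN.Base7
import Fermat.Agent.MS.STEP.Assemble8
import Fermat.Agent.MS.GLUE.SmallPrimes4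
import Fermat.Agent.MS.LOC.FreyInt2

set_option autoImplicit false
set_option linter.unusedSectionVars false
set_option linter.unusedVariables false
set_option linter.style.longLine false
set_option linter.style.haveILetI false
set_option synthInstance.maxHeartbeats 400000
set_option maxHeartbeats 1000000

open WeierstrassCurve WeierstrassCurve.Affine WeierstrassCurve.Affine.Point ExtCitation
open Fermat.Agent.MS.STEP.StepAlg8 Fermat.Agent.MS.STEP.CofStep8 Fermat.Agent.MS.STEP.Assemble8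
open Fermat.Agent.MS.PLACE.CanAll1 Fermat.Agent.MS.PLACE.CanAtNext1

namespace Fermat.Agent.MS.PLACE.FreyCan1

local notation "Qbar" => AlgebraicClosure ℚ
local notation "GQ" => (AlgebraicClosure ℚ ≃ₐ[ℚ] AlgebraicClosure ℚ)

noncomputable section

/-- the discriminant over `ℚ̄` of an integral model with `Δ ≠ 0`. -/
theorem baseChange_Δ_ne_zero (W : WeierstrassCurve ℤ) (hΔ0 : W.Δ ≠ 0) :
    ((QC W)⁄Qbar).Δ ≠ 0 := by
  show ((W.map (Int.castRingHom ℚ)).map (algebraMap ℚ Qbar)).Δ ≠ 0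
  rw [WeierstrassCurve.map_Δ, WeierstrassCurve.map_Δ]
  intro h
  have h1 : (Int.castRingHom ℚ) W.Δ = 0 := by
    apply (algebraMap ℚ Qbar).injective
    rw [h, _root_.map_zero]
  have h2 : ((W.Δ : ℤ) : ℚ) = 0 := h1
  exact hΔ0 (by exact_mod_cast h2)

theorem prime_ge_of_not_mem {p : ℕ} (hp : p.Prime) (hp' : p ∉ ({2, 3, 5, 7, 13} : Finset ℕ)) :
    11 ≤ p := by
  simp only [Finset.mem_insert, Finset.mem_singleton, not_or] at hp'
  obtain ⟨h2, h3, h5, h7, h13⟩ := hp'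
  by_contra hlt
  have hle : p ≤ 10 := by omega
  interval_cases p <;> first | omega | (exact absurd hp (by norm_num))

variable {p : ℕ} [hpF : Fact p.Prime]

/-- **(I-m)** `CanPropagateProp` for a semistable integral model, multiplicative at `2` and `3`. -/
theorem canPropagate_of_mult (hp' : p ∉ ({2, 3, 5, 7, 13} : Finset ℕ))
    (W : WeierstrassCurve ℤ) (hΔ0 : W.Δ ≠ 0)
    (h2Δ : (2 : ℤ) ∣ W.Δ) (h3Δ : (3 : ℤ) ∣ W.Δ)
    (hmult : ∀ ℓ : ℕ, ℓ.Prime → (ℓ : ℤ) ∣ W.Δ → ¬ (ℓ : ℤ) ∣ W.c₄) :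
    CanPropagateProp W p := by
  have hp : p.Prime := hpF.out
  haveI : NeZero p := ⟨hp.ne_zero⟩
  have h11 := prime_ge_of_not_mem hp hp'
  have h3 : 3 ≤ p := by omega
  have hΔ := baseChange_Δ_ne_zero W hΔ0
  have h2c₄ : ¬ (2 : ℤ) ∣ W.c₄ := by
    have := hmult 2 Nat.prime_two (by exact_mod_cast h2Δ)
    exact_mod_cast this
  have h3c₄ : ¬ (3 : ℤ) ∣ W.c₄ := by
    have := hmult 3 Nat.prime_three (by exact_mod_cast h3Δ)
    exact_mod_cast this
  intro k D hk hD C' hC' hcompl ℓ hℓ hℓp hℓΔ A hA x hx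
  exact canAt_next hp' W hΔ0 h2Δ h2c₄ h3Δ h3c₄ hk D (card_tors_pG (QC W) p hΔ h3)
    (exists_div_of_mem_KG hΔ h3 D)
    (fun ℓ' hℓ' hℓ'p hℓ'Δ _ A' hA' x' hx' => hD ℓ' hℓ' hℓ'p hℓ'Δ A' hA' x' hx')
    C' hcompl hC' ℓ hℓ hℓp hℓΔ (hmult ℓ hℓ hℓΔ) A hA x hx

/-- **base canonicity** `BaseCanProp` for a semistable integral model, multiplicative at `2`, `3`. -/
theorem baseCan_of_mult (hp' : p ∉ ({2, 3, 5, 7, 13} : Finset ℕ))
    (W : WeierstrassCurve ℤ) (hΔ0 : W.Δ ≠ 0)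
    (h2Δ : (2 : ℤ) ∣ W.Δ) (h3Δ : (3 : ℤ) ∣ W.Δ)
    (hmult : ∀ ℓ : ℕ, ℓ.Prime → (ℓ : ℤ) ∣ W.Δ → ¬ (ℓ : ℤ) ∣ W.c₄) :
    BaseCanProp W p := by
  have hp : p.Prime := hpF.out
  haveI : NeZero p := ⟨hp.ne_zero⟩
  have h11 := prime_ge_of_not_mem hp hp'
  have h3 : 3 ≤ p := by omega
  have hΔ := baseChange_Δ_ne_zero W hΔ0
  have h2c₄ : ¬ (2 : ℤ) ∣ W.c₄ := by
    have := hmult 2 Nat.prime_two (by exact_mod_cast h2Δ)
    exact_mod_cast this
  have h3c₄ : ¬ (3 : ℤ) ∣ W.c₄ := by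
    have := hmult 3 Nat.prime_three (by exact_mod_cast h3Δ)
    exact_mod_cast this
  intro N hstab hbot htop hcof ℓ hℓ hℓp hℓΔ A hA x hxN
  -- the line as a subgroup of `E(ℚ̄)`
  have hfinT : Finite ↥(tors (EPtG (QC W)) p) := by
    have := finite_tors_powG (QC W) p hΔ h3 1
    rwa [pow_one] at this
  have hle := lineSub_le_tors N
  have hcardT := card_tors_pG (QC W) p hΔ h3
  have hdvd : Nat.card ↥(lineSub N) ∣ p ^ 2 := by
    rw [← hcardT]
    exact AddSubgroup.card_dvd_of_le hle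
  obtain ⟨j, hj, hcard⟩ := (Nat.dvd_prime_pow hp).1 hdvd
  have hfinK : Finite ↥(lineSub N) := Finite.of_injective
    (fun x : ↥(lineSub N) => (⟨x.1, hle x.2⟩ : ↥(tors (EPtG (QC W)) p)))
    (fun a b h => Subtype.ext (congrArg (fun z : ↥(tors (EPtG (QC W)) p) => (z : EPtG (QC W))) h))
  have hj1 : j = 1 := by
    have h0 : j ≠ 0 := by
      rintro rfl
      rw [pow_zero] at hcard
      apply hbot
      rw [eq_bot_iff]
      intro x hx
      have hxK : (x : EPtG (QC W)) ∈ lineSub N := mem_lineSub.2 ⟨x.2, hx⟩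
      haveI : Subsingleton ↥(lineSub N) := (Nat.card_eq_one_iff_unique.1 hcard).1
      have : (⟨(x : EPtG (QC W)), hxK⟩ : ↥(lineSub N)) = 0 := Subsingleton.elim _ _
      have hx0 : (x : EPtG (QC W)) = 0 := congrArg Subtype.val this
      exact (Submodule.mem_bot _).2 (Subtype.ext hx0)
    have h2 : j ≠ 2 := by
      rintro rfl
      apply htop
      have heq : lineSub N = tors (EPtG (QC W)) p :=
        AddSubgroup.eq_of_le_of_card_ge hle (by rw [hcard, hcardT])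
      rw [eq_top_iff]
      intro x _
      have hxT : (x : EPtG (QC W)) ∈ tors (EPtG (QC W)) p :=
        (mem_torsionBy_iff_mem_torsG (QC W) p _).1 x.2
      rw [← heq] at hxT
      obtain ⟨h, hx⟩ := mem_lineSub.1 hxT
      exact hx
    omega
  subst hj1
  rw [pow_one] at hcard
  -- a generator
  obtain ⟨y, hyN, hy0⟩ := (Submodule.ne_bot_iff N).1 hbot
  have hyK : (y : EPtG (QC W)) ∈ lineSub N := mem_lineSub.2 ⟨y.2, hyN⟩
  have hy0' : (y : EPtG (QC W)) ≠ 0 := fun h => hy0 (Subtype.ext h)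
  have hpy : p • (y : EPtG (QC W)) = 0 := mem_tors.1 (hle hyK)
  have hord : addOrderOf (y : EPtG (QC W)) = p := addOrderOf_eq_prime hpy hy0'
  have hKeq : lineSub N = AddSubgroup.zmultiples (y : EPtG (QC W)) := by
    symm
    refine AddSubgroup.eq_of_le_of_card_ge (AddSubgroup.zmultiples_le.2 hyK) ?_
    rw [hcard, Nat.card_zmultiples, hord]
  -- stability and cofixedness of the subgroup
  have hKstab : ∀ σ : GQ, ∀ z ∈ lineSub N, σ • z ∈ lineSub N := by
    intro σ z hz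
    obtain ⟨h, hzN⟩ := mem_lineSub.1 hz
    have := hstab σ _ hzN
    exact mem_lineSub.2 ⟨(σ • (⟨z, h⟩ : Submodule.torsionBy ℤ ((QC W)⁄Qbar).Point (p : ℤ))).2, this⟩
  have hKcof : ∀ σ : GQ, ∀ z : EPtG (QC W), p • z = 0 → σ • z - z ∈ lineSub N := by
    intro σ z hz
    have hzT : z ∈ Submodule.torsionBy ℤ ((QC W)⁄Qbar).Point (p : ℤ) :=
      (mem_torsionBy_iff_mem_torsG (QC W) p z).2 (mem_tors.2 hz)
    have := hcof σ ⟨z, hzT⟩
    exact mem_lineSub.2 ⟨(σ • (⟨z, hzT⟩ : Submodule.torsionBy ℤ ((QC W)⁄Qbar).Point (p : ℤ)) -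
      ⟨z, hzT⟩).2, this⟩
  have hxK : (x : EPtG (QC W)) ∈ AddSubgroup.zmultiples (y : EPtG (QC W)) := by
    rw [← hKeq]
    exact mem_lineSub.2 ⟨x.2, hxN⟩
  have hystab : ∀ σ : GQ, σ • (y : EPtG (QC W)) ∈ AddSubgroup.zmultiples (y : EPtG (QC W)) := by
    intro σ
    rw [← hKeq]
    exact hKstab σ _ hyK
  refine canAt_of_small hp hp' W hΔ0 h2Δ h2c₄ h3Δ h3c₄ 0 (y : EPtG (QC W))
    (by rw [hord, zero_add, pow_one]) hystab ?_ ℓ hℓ hℓp hℓΔ (hmult ℓ hℓ hℓΔ) A hA _ hxK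
  intro r hr hrp hrΔ hrc₄ hs B hB
  refine Fermat.Agent.MS.CAN.Base7.inZero_of_cofixed hr hΔ0 hrΔ hrc₄ hB hp (by omega) hrp ?_
    (lineSub N) hcard hKcof _ hyK
  rcases hs with rfl | rfl | hlt
  · left; omega
  · left; omega
  · by_cases hr2 : r = 2
    · left; subst hr2; omega
    · right; exact ⟨hr2, hlt⟩

/-! ### the Frey curve -/

theorem frey_not_mem (P : FreyPackage) (hp : 17 ≤ P.p) : P.p ∉ ({2, 3, 5, 7, 13} : Finset ℕ) := by
  simp only [Finset.mem_insert, Finset.mem_singleton, not_or]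
  omega

theorem frey_three_dvd_Δ (P : FreyPackage) (hp : 17 ≤ P.p)
    (hline : HasGaloisStableCofixedLine (K := Qbar) ℚ P.freyCurve P.p) :
    (3 : ℤ) ∣ P.freyCurveInt.Δ := by
  have h := (Fermat.Agent.MS.LOC.FreyInt2.dvd_Δ_iff P Nat.prime_three).2
    (by exact_mod_cast Fermat.Agent.MS.GLUE.SmallPrimes4.three_dvd_abc P hp hline)
  exact_mod_cast h

/-- **(I-m) for the Frey curve**: the argument `hC` of `Assemble8.s12_of_inputs`. -/
theorem frey_canPropagate (P : FreyPackage) (hp : 17 ≤ P.p)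
    (hline : HasGaloisStableCofixedLine (K := Qbar) ℚ P.freyCurve P.p) :
    CanPropagateProp P.freyCurveInt P.p :=
  canPropagate_of_mult (frey_not_mem P hp) P.freyCurveInt (Fermat.Agent.MS.LOC.FreyInt2.Δ_ne_zero P)
    (Fermat.Agent.MS.LOC.FreyInt2.two_dvd_Δ P) (frey_three_dvd_Δ P hp hline)
    (Fermat.Agent.MS.LOC.FreyInt2.isSemistableModel P)

/-- **base canonicity for the Frey curve**: the argument `hbase` of `Assemble8.s12_of_inputs`. -/
theorem frey_baseCan (P : FreyPackage) (hp : 17 ≤ P.p)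
    (hline : HasGaloisStableCofixedLine (K := Qbar) ℚ P.freyCurve P.p) :
    BaseCanProp P.freyCurveInt P.p :=
  baseCan_of_mult (frey_not_mem P hp) P.freyCurveInt (Fermat.Agent.MS.LOC.FreyInt2.Δ_ne_zero P)
    (Fermat.Agent.MS.LOC.FreyInt2.two_dvd_Δ P) (frey_three_dvd_Δ P hp hline)
    (Fermat.Agent.MS.LOC.FreyInt2.isSemistableModel P)

end

end Fermat.Agent.MS.PLACE.FreyCan1
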