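/-
Programme MS (S12, Mazur), chapter PLACE (helper1): **the local Tate–Vélu statement at level `M`
(`LTNStatement`) and the pair form** used by the global canonicity step.

* `LTNStatement jT M` : for every integral multiplicative `W / K` and every point `Q` of exact order `M`:
  `j(W) = jT q`, `j(W/⟨Q⟩) = jT q_M` with `q_M ^ e = q ^ d`, `d e = M`, where `e` is the order of `Q`
  in the component group (`¬ RedSingPt (i • Q) ↔ e ∣ i`).
* `pair_lt` : `Q` of order `p^(k+1)` with `p • Q` in the zero component: `j(W/⟨pQ⟩) = jT q₁` and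
  `j(W/⟨Q⟩) = jT (q₁ ^ p)` if `Q` is in the zero component, resp. `= jT q₂` with `q₂ ^ p = q₁` if not.
-/
import Mathlib
import Fermat.Agent.MZ.MOD.LocalGlobal5

set_option autoImplicit false
set_option linter.unusedSectionVars false
set_option linter.unusedVariables false
set_option linter.style.longLine false

namespace Fermat.Agent.MS.PLACE.PairLT1

open WeierstrassCurve WeierstrassCurve.Affine
open Fermat.Agent.MZ.MOD.VeluDef4 Fermat.Agent.MZ.MOD.RedType5 Fermat.Agent.MZ.MOD.LTTransport5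

noncomputable section

variable {K : Type*} [NormedField K] [IsUltrametricDist K] [DecidableEq K]

/-- **the local Tate–Vélu theorem at level `M`** (cyclic subgroups of order `M`). -/
def LTNStatement (jT : K → K) (M : ℕ) : Prop :=
  ∀ (W : WeierstrassCurve K), IsIntegralW W → ‖W.c₄‖ = 1 → W.Δ ≠ 0 → ‖W.Δ‖ < 1 →
    ∀ Q : W.toAffine.Point, addOrderOf Q = M →
      ∃ (q qM : K) (d e : ℕ), q ≠ 0 ∧ ‖q‖ < 1 ∧ W.c₄ ^ 3 / W.Δ = jT q ∧ d * e = M ∧
        veluJ W (xsOf Q M) = jT qM ∧ qM ^ e = q ^ d ∧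
          ∀ i : ℕ, ¬ RedSingPt W (i • Q) ↔ e ∣ i

/-- **the pair form.** -/
theorem pair_lt {jT : K → K} {p : ℕ} (hp : p.Prime) (k : ℕ)
    (hinj : ∀ q q' : K, q ≠ 0 → ‖q‖ < 1 → q' ≠ 0 → ‖q'‖ < 1 → jT q = jT q' → q = q')
    (h1 : LTNStatement jT (p ^ k)) (h2 : LTNStatement jT (p ^ (k + 1)))
    (W : WeierstrassCurve K) (hW : IsIntegralW W) (h4 : ‖W.c₄‖ = 1) (hΔ0 : W.Δ ≠ 0)
    (hΔ : ‖W.Δ‖ < 1) (Q : W.toAffine.Point) (hQ : addOrderOf Q = p ^ (k + 1))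
    (hcan : ¬ RedSingPt W (p • Q)) :
    ∃ q₁ : K, q₁ ≠ 0 ∧ ‖q₁‖ < 1 ∧ veluJ W (xsOf (p • Q) (p ^ k)) = jT q₁ ∧
      ((¬ RedSingPt W Q ∧ veluJ W (xsOf Q (p ^ (k + 1))) = jT (q₁ ^ p)) ∨
        (RedSingPt W Q ∧ ∃ q₂ : K, q₂ ≠ 0 ∧ ‖q₂‖ < 1 ∧ q₂ ^ p = q₁ ∧
          veluJ W (xsOf Q (p ^ (k + 1))) = jT q₂)) := by
  have hp0 : p ≠ 0 := hp.ne_zero
  have hpk0 : p ^ k ≠ 0 := pow_ne_zero _ hp0
  -- the order of `p • Q`
  have hord1 : addOrderOf (p • Q) = p ^ k := by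
    rw [addOrderOf_nsmul' Q hp0, hQ, pow_succ, Nat.gcd_eq_right (Dvd.intro_left _ rfl),
      Nat.mul_div_cancel _ hp.pos]
  obtain ⟨q, q₁, d₁, e₁, hq0, hq1, hj, hde₁, hv₁, hqq₁, hi₁⟩ := h1 W hW h4 hΔ0 hΔ (p • Q) hord1
  have he₁ : e₁ = 1 := by
    have := (hi₁ 1).mp (by rwa [one_smul])
    exact Nat.dvd_one.mp this
  subst he₁
  rw [mul_one] at hde₁
  subst hde₁
  rw [pow_one] at hqq₁
  have hq₁0 : q₁ ≠ 0 := by rw [hqq₁]; exact pow_ne_zero _ hq0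
  have hq₁1 : ‖q₁‖ < 1 := by
    rw [hqq₁, norm_pow]
    exact pow_lt_one₀ (norm_nonneg _) hq1 hpk0
  refine ⟨q₁, hq₁0, hq₁1, hv₁, ?_⟩
  obtain ⟨q', q₂, d, e, hq'0, hq'1, hj', hde, hv₂, hqq₂, hi₂⟩ := h2 W hW h4 hΔ0 hΔ Q hQ
  have hqq' : q' = q := hinj q' q hq'0 hq'1 hq0 hq1 (by rw [← hj', hj])
  subst hqq'
  have hep : e ∣ p := (hi₂ p).mp hcan
  rcases (Nat.dvd_prime hp).mp hep with he | he
  · subst he
    left
    rw [mul_one] at hde
    subst hde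
    rw [pow_one] at hqq₂
    refine ⟨(hi₂ 1).mpr (by simp) |> fun h => by rwa [one_smul] at h, ?_⟩
    rw [hv₂, hqq₂, hqq₁, ← pow_mul, ← pow_succ]
  · rw [he] at hde hqq₂ hi₂
    right
    have hd : d = p ^ k := by
      rw [pow_succ] at hde
      exact Nat.eq_of_mul_eq_mul_right hp.pos hde
    rw [hd] at hqq₂
    have hred : RedSingPt W Q := by
      by_contra hnr
      have := (hi₂ 1).mp (by rwa [one_smul])
      exact hp.one_lt.ne' (Nat.dvd_one.mp this)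
    have hq₂p : q₂ ^ p = q₁ := by rw [hqq₂, hqq₁]
    have hq₂0 : q₂ ≠ 0 := by
      rintro rfl
      rw [zero_pow hp0] at hq₂p
      exact hq₁0 hq₂p.symm
    have hq₂1 : ‖q₂‖ < 1 := by
      by_contra hge
      rw [not_lt] at hge
      have : 1 ≤ ‖q₂‖ ^ p := one_le_pow₀ hge
      rw [← norm_pow, hq₂p] at this
      linarith
    exact ⟨hred, q₂, hq₂0, hq₂1, hq₂p, hv₂⟩

end

end Fermat.Agent.MS.PLACE.PairLT1
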